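/-
Programme T1A (S19), brick G7-B ADAPT, part (B1), helper96.  Mathlib only.

`ScaleEquiv`: linear isomorphisms between nonzero ideals of a ring `R` embedded in a field `F` are
exactly the multiplications by nonzero scalars of `F`.

* `IsScaleIdeal f I I'` : `ι(I') = f • ι(I)` inside `F`, elementwise (`ι = algebraMap R F`);
  `IsScaleIdeal.symm`, `IsScaleIdeal.map` (extension of ideals along `R → S ⊆ F`);
* `IsScaleIdeal.equiv hinj hf h : I ≃ₗ[R] I'` (`ι` injective), with
  `IsScaleIdeal.equiv_apply : ι (h.equiv … y) = f * ι y`;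
* `exists_scalar_of_linearEquiv` : every `e : I ≃ₗ[R] I'` with `I ≠ ⊥` is of this form
  (`isScaleIdeal_of_linearEquiv`), and `scalar_unique`.
-/
import Mathlib

set_option autoImplicit false

namespace Fermat.Agent.T1.Adapt96

section Scale

variable {R F : Type*} [CommRing R] [Field F] [Algebra R F]

/-- `f • I ⊆ I'` inside `F`, elementwise. -/
def ScaleSub (f : F) (I I' : Ideal R) : Prop :=
  ∀ y ∈ I, ∃ x ∈ I', algebraMap R F x = f * algebraMap R F y

/-- `I' = f • I` inside `F`, elementwise. -/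
def IsScaleIdeal (f : F) (I I' : Ideal R) : Prop :=
  ScaleSub f I I' ∧ ∀ x ∈ I', ∃ y ∈ I, algebraMap R F x = f * algebraMap R F y

theorem IsScaleIdeal.symm {f : F} (hf : f ≠ 0) {I I' : Ideal R} (h : IsScaleIdeal f I I') :
    IsScaleIdeal f⁻¹ I' I := by
  refine ⟨fun x hx => ?_, fun y hy => ?_⟩
  · obtain ⟨y, hy, hxy⟩ := h.2 x hx
    exact ⟨y, hy, by rw [hxy, ← mul_assoc, inv_mul_cancel₀ hf, one_mul]⟩
  · obtain ⟨x, hx, hxy⟩ := h.1 y hy
    exact ⟨x, hx, by rw [hxy, ← mul_assoc, inv_mul_cancel₀ hf, one_mul]⟩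

theorem isScaleIdeal_iff_of_ne_zero {f : F} (hf : f ≠ 0) {I I' : Ideal R} :
    IsScaleIdeal f I I' ↔ ScaleSub f I I' ∧ ScaleSub f⁻¹ I' I :=
  ⟨fun h => ⟨h.1, (h.symm hf).1⟩, fun h => ⟨h.1, fun x hx => by
    obtain ⟨y, hy, hxy⟩ := h.2 x hx
    exact ⟨y, hy, by rw [hxy, ← mul_assoc, mul_inv_cancel₀ hf, one_mul]⟩⟩⟩

/-- `f • I ⊆ I'` passes to extended ideals. -/
theorem ScaleSub.map {S : Type*} [CommRing S] [Algebra R S] [Algebra S F] [IsScalarTower R S F]
    {f : F} {I I' : Ideal R} (h : ScaleSub f I I') :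
    ScaleSub f (I.map (algebraMap R S)) (I'.map (algebraMap R S)) := by
  intro y hy
  induction hy using Submodule.span_induction with
  | mem y hy =>
    obtain ⟨y0, hy0, rfl⟩ := hy
    obtain ⟨x0, hx0, hxy⟩ := h y0 hy0
    refine ⟨algebraMap R S x0, Ideal.mem_map_of_mem _ hx0, ?_⟩
    rw [← IsScalarTower.algebraMap_apply, ← IsScalarTower.algebraMap_apply, hxy]
  | zero => exact ⟨0, Ideal.zero_mem _, by simp⟩
  | add y y' _ _ hy hy' =>
    obtain ⟨x, hx, hxy⟩ := hy
    obtain ⟨x', hx', hxy'⟩ := hy'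
    exact ⟨x + x', Ideal.add_mem _ hx hx', by rw [map_add, map_add, hxy, hxy', mul_add]⟩
  | smul s y _ hy =>
    obtain ⟨x, hx, hxy⟩ := hy
    refine ⟨s * x, Ideal.mul_mem_left _ s hx, ?_⟩
    rw [smul_eq_mul, map_mul, map_mul, hxy]
    ring

/-- `I' = f • I` passes to extended ideals. -/
theorem IsScaleIdeal.map {S : Type*} [CommRing S] [Algebra R S] [Algebra S F]
    [IsScalarTower R S F] {f : F} (hf : f ≠ 0) {I I' : Ideal R} (h : IsScaleIdeal f I I') :
    IsScaleIdeal f (I.map (algebraMap R S)) (I'.map (algebraMap R S)) :=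
  (isScaleIdeal_iff_of_ne_zero hf).mpr
    ⟨h.1.map, ((isScaleIdeal_iff_of_ne_zero hf).mp h).2.map⟩

variable (hinj : Function.Injective (algebraMap R F))
include hinj

omit hinj in
/-- A choice of `x ∈ I'` with `ι x = f * ι y`, for `y ∈ I`, provided `f • I ⊆ I'`. -/
theorem exists_mem_of_scale {f : F} {I I' : Ideal R}
    (hsub : ∀ y ∈ I, ∃ x ∈ I', algebraMap R F x = f * algebraMap R F y) (y : I) :
    ∃ x : I', algebraMap R F x = f * algebraMap R F y := by
  obtain ⟨x, hx, hxy⟩ := hsub y y.2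
  exact ⟨⟨x, hx⟩, hxy⟩

/-- Multiplication by `f` as a linear map `I → I'` when `f • I ⊆ I'`. -/
noncomputable def scaleHom {f : F} {I I' : Ideal R}
    (hsub : ∀ y ∈ I, ∃ x ∈ I', algebraMap R F x = f * algebraMap R F y) : I →ₗ[R] I' where
  toFun y := (exists_mem_of_scale hsub y).choose
  map_add' y y' := by
    have h1 := (exists_mem_of_scale hsub (y + y')).choose_spec
    have h2 := (exists_mem_of_scale hsub y).choose_spec
    have h3 := (exists_mem_of_scale hsub y').choose_spec
    apply Subtype.ext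
    apply hinj
    change algebraMap R F ((exists_mem_of_scale hsub (y + y')).choose : R) =
      algebraMap R F (((exists_mem_of_scale hsub y).choose : R) +
        ((exists_mem_of_scale hsub y').choose : R))
    rw [h1, map_add, h2, h3, Submodule.coe_add, map_add, mul_add]
  map_smul' r y := by
    have h1 := (exists_mem_of_scale hsub (r • y)).choose_spec
    have h2 := (exists_mem_of_scale hsub y).choose_spec
    apply Subtype.ext
    apply hinj
    change algebraMap R F ((exists_mem_of_scale hsub (r • y)).choose : R) =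
      algebraMap R F (r * ((exists_mem_of_scale hsub y).choose : R))
    rw [h1, map_mul, h2, Submodule.coe_smul, smul_eq_mul, map_mul]
    ring

theorem scaleHom_apply {f : F} {I I' : Ideal R}
    (hsub : ∀ y ∈ I, ∃ x ∈ I', algebraMap R F x = f * algebraMap R F y) (y : I) :
    algebraMap R F (scaleHom hinj hsub y) = f * algebraMap R F y :=
  (exists_mem_of_scale hsub y).choose_spec

/-- **Multiplication by `f`** as a linear equivalence `I ≃ I'` when `I' = f • I`. -/
noncomputable def scaleEquiv {f : F} (hf : f ≠ 0) {I I' : Ideal R}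
    (hsub : ∀ y ∈ I, ∃ x ∈ I', algebraMap R F x = f * algebraMap R F y)
    (hsup : ∀ x ∈ I', ∃ y ∈ I, algebraMap R F x = f * algebraMap R F y) : I ≃ₗ[R] I' :=
  LinearEquiv.ofBijective (scaleHom hinj hsub) (by
    constructor
    · intro y y' hyy'
      apply Subtype.ext
      apply hinj
      have h1 := scaleHom_apply hinj hsub y
      have h2 := scaleHom_apply hinj hsub y'
      rw [hyy', h2] at h1
      exact (mul_left_cancel₀ hf h1).symm
    · intro x
      obtain ⟨y, hy, hxy⟩ := hsup x x.2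
      refine ⟨⟨y, hy⟩, ?_⟩
      apply Subtype.ext
      apply hinj
      rw [scaleHom_apply, hxy])

theorem scaleEquiv_apply {f : F} (hf : f ≠ 0) {I I' : Ideal R}
    (hsub : ∀ y ∈ I, ∃ x ∈ I', algebraMap R F x = f * algebraMap R F y)
    (hsup : ∀ x ∈ I', ∃ y ∈ I, algebraMap R F x = f * algebraMap R F y) (y : I) :
    algebraMap R F (scaleEquiv hinj hf hsub hsup y) = f * algebraMap R F y :=
  scaleHom_apply hinj hsub y

/-- `scaleEquiv` from `IsScaleIdeal`. -/
noncomputable def IsScaleIdeal.equiv {f : F} (hf : f ≠ 0) {I I' : Ideal R}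
    (h : IsScaleIdeal f I I') : I ≃ₗ[R] I' :=
  scaleEquiv hinj hf h.1 h.2

theorem IsScaleIdeal.equiv_apply {f : F} (hf : f ≠ 0) {I I' : Ideal R}
    (h : IsScaleIdeal f I I') (y : I) :
    algebraMap R F (h.equiv hinj hf y) = f * algebraMap R F y :=
  scaleEquiv_apply hinj hf h.1 h.2 y

omit hinj in
/-- A linear equivalence which is multiplication by `f` exhibits `I' = f • I`. -/
theorem isScaleIdeal_of_linearEquiv {f : F} {I I' : Ideal R} (e : I ≃ₗ[R] I')
    (he : ∀ y : I, algebraMap R F (e y) = f * algebraMap R F y) : IsScaleIdeal f I I' := by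
  refine ⟨fun y hy => ⟨e ⟨y, hy⟩, (e ⟨y, hy⟩).2, he ⟨y, hy⟩⟩, fun x hx => ?_⟩
  refine ⟨e.symm ⟨x, hx⟩, (e.symm ⟨x, hx⟩).2, ?_⟩
  rw [← he, LinearEquiv.apply_symm_apply]

/-- A linear map between ideals of `R ⊆ F`, the source nonzero, is multiplication by a scalar. -/
theorem exists_scalar_of_linearMap {I I' : Ideal R} (hI : I ≠ ⊥) (e : I →ₗ[R] I') :
    ∃ f : F, ∀ y : I, algebraMap R F (e y) = f * algebraMap R F y := by
  obtain ⟨a, ha, ha0⟩ := Submodule.exists_mem_ne_zero_of_ne_bot hI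
  have hιa : algebraMap R F a ≠ 0 := fun h => ha0 (hinj (by rw [h, map_zero]))
  refine ⟨algebraMap R F (e ⟨a, ha⟩) / algebraMap R F a, fun y => ?_⟩
  have h1 : (a : R) • (e y : R) = (y : R) • (e ⟨a, ha⟩ : R) := by
    have h2 : e ((y : R) • (⟨a, ha⟩ : I)) = e ((a : R) • y) := by
      congr 1
      apply Subtype.ext
      simp [mul_comm]
    rw [map_smul, map_smul] at h2
    have := congrArg (fun z : I' => (z : R)) h2
    simpa using this.symm
  have h3 : algebraMap R F a * algebraMap R F (e y) =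
      algebraMap R F y * algebraMap R F (e ⟨a, ha⟩) := by
    rw [← map_mul, ← map_mul]
    exact congrArg _ h1
  field_simp
  rw [mul_comm]
  rw [h3]
  ring

/-- The scalar of a linear equivalence is nonzero. -/
theorem exists_scalar_of_linearEquiv {I I' : Ideal R} (hI : I ≠ ⊥) (e : I ≃ₗ[R] I') :
    ∃ f : F, f ≠ 0 ∧ ∀ y : I, algebraMap R F (e y) = f * algebraMap R F y := by
  obtain ⟨f, hf⟩ := exists_scalar_of_linearMap hinj hI e.toLinearMap
  refine ⟨f, ?_, hf⟩
  rintro rfl
  obtain ⟨a, ha, ha0⟩ := Submodule.exists_mem_ne_zero_of_ne_bot hI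
  have h1 := hf ⟨a, ha⟩
  rw [zero_mul] at h1
  have h2 : ((e.toLinearMap ⟨a, ha⟩ : I') : R) = 0 := hinj (by rw [h1, map_zero])
  have h3 : e ⟨a, ha⟩ = 0 := Subtype.ext h2
  have h4 : (⟨a, ha⟩ : I) = 0 := e.injective (by rw [h3, map_zero])
  exact ha0 (congrArg Subtype.val h4)

/-- The scalar is determined by its value at one nonzero element. -/
theorem scalar_unique {f g : F} {y : R} (hy : y ≠ 0)
    (h : f * algebraMap R F y = g * algebraMap R F y) : f = g := by
  have hιy : algebraMap R F y ≠ 0 := fun h0 => hy (hinj (by rw [h0, map_zero]))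
  exact mul_right_cancel₀ hιy h

end Scale

end Fermat.Agent.T1.Adapt96
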