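/-
Programme T1A (S19), brick G7-B ADAPT, part (B1), abstract core, helper96.

`IdealIso`: for a two-chart ring `c : TwoChart A R0 R1 R01` whose three rings embed compatibly in a
field `F`, and ideal pairs `D`, `D'` with nonzero chart ideals,

  `O(-D) ≅ O(-D')`  ⟺  `∃ f ∈ Fˣ, D'.I0 = f • D.I0 ∧ D'.I1 = f • D.I1`  (inside `F`).

* `isoOfScale`     : the isomorphism "multiplication by `f`";
* `exists_scale_of_iso` : every isomorphism is of this form (an `R`-linear isomorphism between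
  nonzero ideals of a domain is multiplication by a scalar of the fraction field; the overlap
  compatibilities force the three scalars to agree);
* `nonempty_iso_ofIdeals_iff`, `mk_ofIdeals_eq_mk_ofIdeals_iff` (in `LinePic`).
-/
import Fermat.Agent.Jac.LineOps39.IdealSheaf
import Fermat.Agent.Jac.JGroup85Pic
import Fermat.Agent.T1.Adapt96.ScaleEquiv

set_option autoImplicit false

universe u

namespace Fermat.Agent.T1.Adapt96

open Fermat.Agent.Jac Fermat.Agent.Jac.LineOps39 Fermat.Agent.Jac.JGroup85Pic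

variable {A R0 R1 R01 : Type u} [CommRing A] [CommRing R0] [CommRing R1] [CommRing R01]
  [Algebra A R0] [Algebra A R1] [Algebra A R01] [Algebra R0 R01] [Algebra R1 R01]
  [IsScalarTower A R0 R01] [IsScalarTower A R1 R01]
  {F : Type*} [Field F] [Algebra R0 F] [Algebra R1 F] [Algebra R01 F]
  [IsScalarTower R0 R01 F] [IsScalarTower R1 R01 F]

/-- The embedding hypotheses: all three chart rings inject into the field `F`. -/
structure EmbedsIn (R0 R1 R01 F : Type*) [CommRing R0] [CommRing R1] [CommRing R01] [Field F]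
    [Algebra R0 F] [Algebra R1 F] [Algebra R01 F] : Prop where
  inj0 : Function.Injective (algebraMap R0 F)
  inj1 : Function.Injective (algebraMap R1 F)
  inj01 : Function.Injective (algebraMap R01 F)

variable (c : TwoChart A R0 R1 R01) (hF : EmbedsIn R0 R1 R01 F)

/-- `D' = f • D` for ideal pairs, inside `F`. -/
def IsScalePair (f : F) (D D' : IdealPair R0 R1 R01) : Prop :=
  IsScaleIdeal f D.I0 D'.I0 ∧ IsScaleIdeal f D.I1 D'.I1

omit [Algebra R1 F] [IsScalarTower R1 R01 F] in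
theorem isScaleIdeal_I01_of_0 {f : F} (hf : f ≠ 0) {D D' : IdealPair R0 R1 R01}
    (h : IsScaleIdeal f D.I0 D'.I0) : IsScaleIdeal f D.I01 D'.I01 :=
  h.map hf

include hF in
/-- **Multiplication by `f`** as an isomorphism `O(-D) ≅ O(-D')`. -/
noncomputable def isoOfScale {f : F} (hf : f ≠ 0) {D D' : IdealPair R0 R1 R01}
    (h : IsScalePair f D D') : QC2.Iso (ofIdeals c D) (ofIdeals c D') where
  e0 := h.1.equiv hF.inj0 hf
  e1 := h.2.equiv hF.inj1 hf
  e01 := (isScaleIdeal_I01_of_0 hf h.1).equiv hF.inj01 hf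
  comm0 x := by
    apply Subtype.ext
    apply hF.inj01
    have h1 := (isScaleIdeal_I01_of_0 hf h.1).equiv_apply hF.inj01 hf ((ofIdeals c D).r0 x)
    have h2 := h.1.equiv_apply hF.inj0 hf x
    refine h1.trans ?_
    show f * algebraMap R01 F (algebraMap R0 R01 (show ↥D.I0 from x).1) =
      algebraMap R01 F (algebraMap R0 R01 ((h.1.equiv hF.inj0 hf x : D'.I0) : R0))
    rw [← IsScalarTower.algebraMap_apply, ← IsScalarTower.algebraMap_apply, h2]
  comm1 x := by
    apply Subtype.ext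
    apply hF.inj01
    have h1 := (isScaleIdeal_I01_of_0 hf h.1).equiv_apply hF.inj01 hf ((ofIdeals c D).r1 x)
    have h2 := h.2.equiv_apply hF.inj1 hf x
    refine h1.trans ?_
    show f * algebraMap R01 F (algebraMap R1 R01 (show ↥D.I1 from x).1) =
      algebraMap R01 F (algebraMap R1 R01 ((h.2.equiv hF.inj1 hf x : D'.I1) : R1))
    rw [← IsScalarTower.algebraMap_apply, ← IsScalarTower.algebraMap_apply, h2]

include hF in
/-- Every isomorphism `O(-D) ≅ O(-D')` is multiplication by a nonzero scalar of `F`. -/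
theorem exists_scale_of_iso {D D' : IdealPair R0 R1 R01} (hD0 : D.I0 ≠ ⊥) (hD1 : D.I1 ≠ ⊥)
    (E : QC2.Iso (ofIdeals c D) (ofIdeals c D')) : ∃ f : F, f ≠ 0 ∧ IsScalePair f D D' := by
  -- the three chart scalars
  let e0 : D.I0 ≃ₗ[R0] D'.I0 := E.e0
  let e1 : D.I1 ≃ₗ[R1] D'.I1 := E.e1
  let e01 : D.I01 ≃ₗ[R01] D'.I01 := E.e01
  obtain ⟨a, ha, ha0⟩ := Submodule.exists_mem_ne_zero_of_ne_bot hD0
  obtain ⟨b, hb, hb0⟩ := Submodule.exists_mem_ne_zero_of_ne_bot hD1
  have hinj0' : Function.Injective (algebraMap R0 R01) := by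
    intro x y hxy
    apply hF.inj0
    rw [IsScalarTower.algebraMap_apply R0 R01 F, IsScalarTower.algebraMap_apply R0 R01 F, hxy]
  have hinj1' : Function.Injective (algebraMap R1 R01) := by
    intro x y hxy
    apply hF.inj1
    rw [IsScalarTower.algebraMap_apply R1 R01 F, IsScalarTower.algebraMap_apply R1 R01 F, hxy]
  have ha01 : algebraMap R0 R01 a ∈ D.I01 := Ideal.mem_map_of_mem _ ha
  have ha01' : algebraMap R0 R01 a ≠ 0 := fun h => ha0 (hinj0' (by rw [h, map_zero]))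
  have hD01 : D.I01 ≠ ⊥ := fun h => ha01' (by rw [h] at ha01; exact (Submodule.mem_bot R01).mp ha01)
  obtain ⟨f0, hf0, he0⟩ := exists_scalar_of_linearEquiv hF.inj0 hD0 e0
  obtain ⟨f1, _, he1⟩ := exists_scalar_of_linearEquiv hF.inj1 hD1 e1
  obtain ⟨f01, _, he01⟩ := exists_scalar_of_linearEquiv hF.inj01 hD01 e01
  -- compatibility on the overlap
  have h001 : f01 = f0 := by
    have hc := E.comm0 ⟨a, ha⟩
    have hc' : algebraMap R01 F (show ↥D'.I01 from E.e01 ((ofIdeals c D).r0 ⟨a, ha⟩)).1 =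
        algebraMap R01 F (show ↥D'.I01 from (ofIdeals c D').r0 (E.e0 ⟨a, ha⟩)).1 := by rw [hc]
    have h1 : algebraMap R01 F (show ↥D'.I01 from E.e01 ((ofIdeals c D).r0 ⟨a, ha⟩)).1 =
        f01 * algebraMap R0 F a := by
      refine (he01 ((ofIdeals c D).r0 ⟨a, ha⟩)).trans ?_
      show f01 * algebraMap R01 F (algebraMap R0 R01 a) = _
      rw [← IsScalarTower.algebraMap_apply]
    have h2 : algebraMap R01 F (show ↥D'.I01 from (ofIdeals c D').r0 (E.e0 ⟨a, ha⟩)).1 =
        f0 * algebraMap R0 F a := by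
      show algebraMap R01 F (algebraMap R0 R01 ((e0 ⟨a, ha⟩ : D'.I0) : R0)) = _
      rw [← IsScalarTower.algebraMap_apply, he0]
    exact scalar_unique hF.inj0 ha0 (h1.symm.trans (hc'.trans h2))
  have h101 : f01 = f1 := by
    have hc := E.comm1 ⟨b, hb⟩
    have hc' : algebraMap R01 F (show ↥D'.I01 from E.e01 ((ofIdeals c D).r1 ⟨b, hb⟩)).1 =
        algebraMap R01 F (show ↥D'.I01 from (ofIdeals c D').r1 (E.e1 ⟨b, hb⟩)).1 := by rw [hc]
    have h1 : algebraMap R01 F (show ↥D'.I01 from E.e01 ((ofIdeals c D).r1 ⟨b, hb⟩)).1 =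
        f01 * algebraMap R1 F b := by
      refine (he01 ((ofIdeals c D).r1 ⟨b, hb⟩)).trans ?_
      show f01 * algebraMap R01 F (algebraMap R1 R01 b) = _
      rw [← IsScalarTower.algebraMap_apply]
    have h2 : algebraMap R01 F (show ↥D'.I01 from (ofIdeals c D').r1 (E.e1 ⟨b, hb⟩)).1 =
        f1 * algebraMap R1 F b := by
      show algebraMap R01 F (algebraMap R1 R01 ((e1 ⟨b, hb⟩ : D'.I1) : R1)) = _
      rw [← IsScalarTower.algebraMap_apply, he1]
    exact scalar_unique hF.inj1 hb0 (h1.symm.trans (hc'.trans h2))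
  refine ⟨f0, hf0, isScaleIdeal_of_linearEquiv e0 he0, isScaleIdeal_of_linearEquiv e1 ?_⟩
  intro y
  rw [he1, ← h101, h001]

include hF in
/-- **(B1), abstract form.** -/
theorem nonempty_iso_ofIdeals_iff {D D' : IdealPair R0 R1 R01} (hD0 : D.I0 ≠ ⊥)
    (hD1 : D.I1 ≠ ⊥) :
    Nonempty (QC2.Iso (ofIdeals c D) (ofIdeals c D')) ↔ ∃ f : F, f ≠ 0 ∧ IsScalePair f D D' :=
  ⟨fun ⟨E⟩ => exists_scale_of_iso c hF hD0 hD1 E, fun ⟨_, hf, h⟩ => ⟨isoOfScale c hF hf h⟩⟩

include hF in
/-- **(B1), abstract form, in the Picard group.** -/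
theorem mk_ofIdeals_eq_mk_ofIdeals_iff {D D' : IdealPair R0 R1 R01} (hD0 : D.I0 ≠ ⊥)
    (hD1 : D.I1 ≠ ⊥) (hL : (ofIdeals c D).IsLine) (hL' : (ofIdeals c D').IsLine) :
    LinePic.mk c (ofIdeals c D) hL = LinePic.mk c (ofIdeals c D') hL' ↔
      ∃ f : F, f ≠ 0 ∧ IsScalePair f D D' := by
  rw [LinePic.mk_eq_mk_iff]
  exact nonempty_iso_ofIdeals_iff c hF hD0 hD1

end Fermat.Agent.T1.Adapt96
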