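/-
Programme T1A (S19), brick G7-B ADAPT, parts (B1) + (B2), helper96.

The adapter between ideal pairs of a two-chart ring `c : TwoChart K R0 R1 R01` (in the application
`R_j = L ⊗[W] B_j`, `c = c0.baseChange L`) and helper59's FIELD-LEVEL line pairs
(`Dict59.LinePair K t`, pairs of finitely generated modules over the charts `C0 t`, `C1 t` inside a
field `F`).

* `ChartIso c t` : the input (a hypothesis structure until G2 lands): ring isomorphisms
  `e0 : R0 ≃+* C0 t`, `e1 : R1 ≃+* C1 t` and an injective `e01 : R01 →+* F`, compatible with the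
  overlap maps, with `e0 c.t = t`, `e1 c.s = t⁻¹`, `K`-linear;
* `ChartIso.toLinePair E D hD0 hD1 : LinePair K t` for an ideal pair `D` with nonzero chart ideals
  (`I_j := e_j (D.I_j)`), `mem_toLinePair_I0/I1`;
* `mk_ofIdeals_mul` : **(B2), Picard form** `mk (ofIdeals (D.mul D')) = mk (ofIdeals D) * mk (ofIdeals D')`
  in `LinePic` (pure Jac vocabulary), `isLine_ofIdeals_mul`, `tensorOfIdealsMulIso`;
* (B1) and the line-pair form of (B2) are in `Adapt96/Main.lean`.
-/
import Fermat.Agent.T1.Dict59.Iface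
import Fermat.Agent.T1.Adapt96.IdealIso
import Fermat.Agent.Jac.AbelJacobi73.Factor

set_option autoImplicit false
set_option linter.style.haveILetI false

universe u v

namespace Fermat.Agent.T1.Adapt96

open Fermat.Agent.Jac Fermat.Agent.Jac.LineOps39 Fermat.Agent.Jac.JGroup85Pic
open Fermat.Agent.T1.Dict59

/-! ### Multiplicativity in the Picard group (pure Jac vocabulary) -/

section PicMul

variable {A R0 R1 R01 : Type u} [CommRing A] [CommRing R0] [CommRing R1] [CommRing R01]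
  [Algebra A R0] [Algebra A R1] [Algebra A R01] [Algebra R0 R01] [Algebra R1 R01]
  [IsScalarTower A R0 R01] [IsScalarTower A R1 R01] (c : TwoChart A R0 R1 R01)

/-- `O(-D) ⊗ O(-D') ≅ O(-(D + D'))`. -/
noncomputable def tensorOfIdealsMulIso (D D' : IdealPair R0 R1 R01)
    (hL' : (ofIdeals c D').IsLine) :
    QC2.Iso (tensor (ofIdeals c D) (ofIdeals c D')) (ofIdeals c (D.mul D')) :=
  isoTrans (tensorOfIdealsIso c D (isVB_of_isLine hL'))
    (Fermat.Agent.Jac.AbelJacobi73.ofIdealsMulIso c D D')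

/-- **(B2), Picard group form.** -/
theorem mk_ofIdeals_mul (D D' : IdealPair R0 R1 R01) (hL : (ofIdeals c D).IsLine)
    (hL' : (ofIdeals c D').IsLine) (hL'' : (ofIdeals c (D.mul D')).IsLine) :
    LinePic.mk c (ofIdeals c (D.mul D')) hL'' =
      LinePic.mk c (ofIdeals c D) hL * LinePic.mk c (ofIdeals c D') hL' := by
  rw [LinePic.mk_mul_mk]
  exact (LinePic.mk_eq_mk _ _ (tensorOfIdealsMulIso c D D' hL')).symm

/-- The product of two line ideal sheaves is a line. -/
theorem isLine_ofIdeals_mul (D D' : IdealPair R0 R1 R01) (hL : (ofIdeals c D).IsLine)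
    (hL' : (ofIdeals c D').IsLine) : (ofIdeals c (D.mul D')).IsLine :=
  isLine_of_iso (tensorOfIdealsMulIso c D D' hL') (isLine_tensor hL hL')

end PicMul

/-! ### The chart isomorphisms -/

variable {K R0 R1 R01 : Type u} [Field K] [CommRing R0] [CommRing R1] [CommRing R01]
  [Algebra K R0] [Algebra K R1] [Algebra K R01] [Algebra R0 R01] [Algebra R1 R01]
  [IsScalarTower K R0 R01] [IsScalarTower K R1 R01]
  {F : Type v} [Field F] [Algebra K F]

/-- **Input of the adapter**: identification of the two-chart ring `c` with the field-level charts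
`C0 t`, `C1 t` (integral closures of `K[t]`, `K[t⁻¹]` in `F`). -/
structure ChartIso (c : TwoChart K R0 R1 R01) (t : F) where
  e0 : R0 ≃+* ↥(C0 (K := K) t)
  e1 : R1 ≃+* ↥(C1 (K := K) t)
  e01 : R01 →+* F
  e01_inj : Function.Injective e01
  comm0 : ∀ x : R0, e01 (algebraMap R0 R01 x) = (e0 x : F)
  comm1 : ∀ x : R1, e01 (algebraMap R1 R01 x) = (e1 x : F)
  map_t : (e0 c.t : F) = t
  map_s : (e1 c.s : F) = t⁻¹
  linear0 : ∀ a : K, (e0 (algebraMap K R0 a) : F) = algebraMap K F a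
  linear1 : ∀ a : K, (e1 (algebraMap K R1 a) : F) = algebraMap K F a

namespace ChartIso

variable {c : TwoChart K R0 R1 R01} {t : F} (E : ChartIso c t)

/-- The embedding `R0 → F`. -/
def ι0 : R0 →+* F := (C0 (K := K) t).val.toRingHom.comp (E.e0 : R0 →+* ↥(C0 (K := K) t))

/-- The embedding `R1 → F`. -/
def ι1 : R1 →+* F := (C1 (K := K) t).val.toRingHom.comp (E.e1 : R1 →+* ↥(C1 (K := K) t))

@[simp] theorem ι0_apply (x : R0) : E.ι0 x = (E.e0 x : F) := rfl

@[simp] theorem ι1_apply (x : R1) : E.ι1 x = (E.e1 x : F) := rfl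

theorem ι0_injective : Function.Injective E.ι0 :=
  Subtype.val_injective.comp E.e0.injective

theorem ι1_injective : Function.Injective E.ι1 :=
  Subtype.val_injective.comp E.e1.injective

theorem e01_algebraMap0 (x : R0) : E.e01 (algebraMap R0 R01 x) = E.ι0 x := E.comm0 x

theorem e01_algebraMap1 (x : R1) : E.e01 (algebraMap R1 R01 x) = E.ι1 x := E.comm1 x

/-- `F` as an `R0`-algebra via `E`.  Not an instance. -/
@[reducible] def alg0 : Algebra R0 F := E.ι0.toAlgebra

/-- `F` as an `R1`-algebra via `E`.  Not an instance. -/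
@[reducible] def alg1 : Algebra R1 F := E.ι1.toAlgebra

/-- `F` as an `R01`-algebra via `E`.  Not an instance. -/
@[reducible] def alg01 : Algebra R01 F := E.e01.toAlgebra

theorem tower0 :
    letI := E.alg0
    letI := E.alg01
    IsScalarTower R0 R01 F := by
  letI := E.alg0
  letI := E.alg01
  exact IsScalarTower.of_algebraMap_eq fun x => (E.comm0 x).symm

theorem tower1 :
    letI := E.alg1
    letI := E.alg01
    IsScalarTower R1 R01 F := by
  letI := E.alg1
  letI := E.alg01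
  exact IsScalarTower.of_algebraMap_eq fun x => (E.comm1 x).symm

theorem embedsIn :
    letI := E.alg0
    letI := E.alg1
    letI := E.alg01
    EmbedsIn R0 R1 R01 F := by
  letI := E.alg0
  letI := E.alg1
  letI := E.alg01
  exact ⟨E.ι0_injective, E.ι1_injective, E.e01_inj⟩

include E in
theorem isDomain0 : IsDomain R0 :=
  Function.Injective.isDomain E.ι0 E.ι0_injective

include E in
theorem isDomain1 : IsDomain R1 :=
  Function.Injective.isDomain E.ι1 E.ι1_injective

/-! ### The line pair of an ideal pair -/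

/-- The image of an ideal of `R0` in `F`, as a `C0 t`-submodule. -/
def image0 (I : Ideal R0) : Submodule (C0 (K := K) t) F where
  carrier := {x | ∃ y ∈ I, x = E.ι0 y}
  add_mem' := by
    rintro _ _ ⟨y, hy, rfl⟩ ⟨y', hy', rfl⟩
    exact ⟨y + y', I.add_mem hy hy', (map_add _ _ _).symm⟩
  zero_mem' := ⟨0, I.zero_mem, (map_zero _).symm⟩
  smul_mem' := by
    rintro a _ ⟨y, hy, rfl⟩
    refine ⟨E.e0.symm a * y, I.mul_mem_left _ hy, ?_⟩
    have h1 : E.ι0 (E.e0.symm a) = (a : F) := by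
      rw [ι0_apply, RingEquiv.apply_symm_apply]
    rw [map_mul, h1]
    rfl

/-- The image of an ideal of `R1` in `F`, as a `C1 t`-submodule. -/
def image1 (I : Ideal R1) : Submodule (C1 (K := K) t) F where
  carrier := {x | ∃ y ∈ I, x = E.ι1 y}
  add_mem' := by
    rintro _ _ ⟨y, hy, rfl⟩ ⟨y', hy', rfl⟩
    exact ⟨y + y', I.add_mem hy hy', (map_add _ _ _).symm⟩
  zero_mem' := ⟨0, I.zero_mem, (map_zero _).symm⟩
  smul_mem' := by
    rintro a _ ⟨y, hy, rfl⟩
    refine ⟨E.e1.symm a * y, I.mul_mem_left _ hy, ?_⟩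
    have h1 : E.ι1 (E.e1.symm a) = (a : F) := by
      rw [ι1_apply, RingEquiv.apply_symm_apply]
    rw [map_mul, h1]
    rfl

theorem mem_image0 {I : Ideal R0} {x : F} : x ∈ E.image0 I ↔ ∃ y ∈ I, x = E.ι0 y := Iff.rfl

theorem mem_image1 {I : Ideal R1} {x : F} : x ∈ E.image1 I ↔ ∃ y ∈ I, x = E.ι1 y := Iff.rfl

theorem image0_fg {I : Ideal R0} (hI : I.FG) : (E.image0 I).FG := by
  classical
  obtain ⟨S, rfl⟩ := hI
  refine ⟨S.image E.ι0, le_antisymm ?_ ?_⟩
  · rw [Submodule.span_le]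
    intro x hx
    rw [Finset.coe_image] at hx
    obtain ⟨y, hy, rfl⟩ := hx
    exact ⟨y, Submodule.subset_span hy, rfl⟩
  · rintro _ ⟨y, hy, rfl⟩
    induction hy using Submodule.span_induction with
    | mem y hy =>
      exact Submodule.subset_span (by rw [Finset.coe_image]; exact ⟨y, hy, rfl⟩)
    | zero => rw [map_zero]; exact Submodule.zero_mem _
    | add y y' _ _ hy hy' => rw [map_add]; exact Submodule.add_mem _ hy hy'
    | smul r y _ hy =>
      have : E.ι0 (r • y) = E.e0 r • E.ι0 y := by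
        rw [smul_eq_mul, map_mul]
        rfl
      rw [this]
      exact Submodule.smul_mem _ _ hy

theorem image1_fg {I : Ideal R1} (hI : I.FG) : (E.image1 I).FG := by
  classical
  obtain ⟨S, rfl⟩ := hI
  refine ⟨S.image E.ι1, le_antisymm ?_ ?_⟩
  · rw [Submodule.span_le]
    intro x hx
    rw [Finset.coe_image] at hx
    obtain ⟨y, hy, rfl⟩ := hx
    exact ⟨y, Submodule.subset_span hy, rfl⟩
  · rintro _ ⟨y, hy, rfl⟩
    induction hy using Submodule.span_induction with
    | mem y hy =>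
      exact Submodule.subset_span (by rw [Finset.coe_image]; exact ⟨y, hy, rfl⟩)
    | zero => rw [map_zero]; exact Submodule.zero_mem _
    | add y y' _ _ hy hy' => rw [map_add]; exact Submodule.add_mem _ hy hy'
    | smul r y _ hy =>
      have : E.ι1 (r • y) = E.e1 r • E.ι1 y := by
        rw [smul_eq_mul, map_mul]
        rfl
      rw [this]
      exact Submodule.smul_mem _ _ hy

theorem image0_ne_bot {I : Ideal R0} (hI : I ≠ ⊥) : E.image0 I ≠ ⊥ := by
  obtain ⟨a, ha, ha0⟩ := Submodule.exists_mem_ne_zero_of_ne_bot hI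
  intro h
  have h1 : E.ι0 a ∈ E.image0 I := ⟨a, ha, rfl⟩
  rw [h, Submodule.mem_bot] at h1
  exact ha0 (E.ι0_injective (by rw [h1, map_zero]))

theorem image1_ne_bot {I : Ideal R1} (hI : I ≠ ⊥) : E.image1 I ≠ ⊥ := by
  obtain ⟨a, ha, ha0⟩ := Submodule.exists_mem_ne_zero_of_ne_bot hI
  intro h
  have h1 : E.ι1 a ∈ E.image1 I := ⟨a, ha, rfl⟩
  rw [h, Submodule.mem_bot] at h1
  exact ha0 (E.ι1_injective (by rw [h1, map_zero]))

/-- Overlap: `e0 (I0)[1/t] ⊆ e1 (I1)[t]`. -/
theorem ov01 (D : IdealPair R0 R1 R01) :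
    ∀ x ∈ E.image0 D.I0, ∃ k : ℕ, t⁻¹ ^ k * x ∈ E.image1 D.I1 := by
  rintro _ ⟨y, hy, rfl⟩
  have h1 : algebraMap R0 R01 y ∈ D.I1.map (algebraMap R1 R01) := by
    rw [← D.compat]
    exact Ideal.mem_map_of_mem _ hy
  have := c.away1
  rw [IsLocalization.mem_map_algebraMap_iff (Submonoid.powers c.s) R01] at h1
  obtain ⟨⟨⟨z, hz⟩, ⟨_, k, rfl⟩⟩, hzk⟩ := h1
  refine ⟨k, z, hz, ?_⟩
  have h2 := congrArg E.e01 hzk
  simp only [map_mul, map_pow, e01_algebraMap0, e01_algebraMap1] at h2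
  rw [← h2, ι1_apply, E.map_s, mul_comm]

/-- Overlap: `e1 (I1)[t] ⊆ e0 (I0)[1/t]`. -/
theorem ov10 (D : IdealPair R0 R1 R01) :
    ∀ x ∈ E.image1 D.I1, ∃ k : ℕ, t ^ k * x ∈ E.image0 D.I0 := by
  rintro _ ⟨y, hy, rfl⟩
  have h1 : algebraMap R1 R01 y ∈ D.I0.map (algebraMap R0 R01) := by
    rw [D.compat]
    exact Ideal.mem_map_of_mem _ hy
  have := c.away0
  rw [IsLocalization.mem_map_algebraMap_iff (Submonoid.powers c.t) R01] at h1
  obtain ⟨⟨⟨z, hz⟩, ⟨_, k, rfl⟩⟩, hzk⟩ := h1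
  refine ⟨k, z, hz, ?_⟩
  have h2 := congrArg E.e01 hzk
  simp only [map_mul, map_pow, e01_algebraMap0, e01_algebraMap1] at h2
  rw [← h2, ι0_apply, E.map_t, mul_comm]

/-- **The line pair of an ideal pair** with nonzero finitely generated chart ideals. -/
def toLinePair (D : IdealPair R0 R1 R01) (hD0 : D.I0 ≠ ⊥) (hD1 : D.I1 ≠ ⊥)
    (hfg0 : D.I0.FG) (hfg1 : D.I1.FG) : LinePair K t where
  I0 := E.image0 D.I0
  I1 := E.image1 D.I1
  fg0 := E.image0_fg hfg0
  fg1 := E.image1_fg hfg1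
  ne0 := E.image0_ne_bot hD0
  ne1 := E.image1_ne_bot hD1
  ov01 := E.ov01 D
  ov10 := E.ov10 D

theorem mem_toLinePair_I0 {D : IdealPair R0 R1 R01} {hD0 : D.I0 ≠ ⊥} {hD1 : D.I1 ≠ ⊥}
    {hfg0 : D.I0.FG} {hfg1 : D.I1.FG} {x : F} :
    x ∈ (E.toLinePair D hD0 hD1 hfg0 hfg1).I0 ↔ ∃ y ∈ D.I0, x = E.ι0 y := Iff.rfl

theorem mem_toLinePair_I1 {D : IdealPair R0 R1 R01} {hD0 : D.I0 ≠ ⊥} {hD1 : D.I1 ≠ ⊥}
    {hfg0 : D.I0.FG} {hfg1 : D.I1.FG} {x : F} :
    x ∈ (E.toLinePair D hD0 hD1 hfg0 hfg1).I1 ↔ ∃ y ∈ D.I1, x = E.ι1 y := Iff.rfl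

end ChartIso

end Fermat.Agent.T1.Adapt96
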