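/-
Programme T1A (S19), brick G7-B ADAPT, parts (B1) + (B2): the final statements, helper96.

With `E : ChartIso c t` (`c : TwoChart K R0 R1 R01`, `t : F`) and ideal pairs `D`, `D'` with nonzero
finitely generated chart ideals:

* **(B1)** `ChartIso.mk_ofIdeals_eq_iff_isScale` :
  `LinePic.mk c (ofIdeals c D) _ = LinePic.mk c (ofIdeals c D') _ ↔
     ∃ f : F, f ≠ 0 ∧ LinePair.IsScale f (E.toLinePair D ..) (E.toLinePair D' ..)`
  (also `ChartIso.nonempty_iso_iff_isScale` for isomorphisms of two-chart modules);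
* **(B2)** `ChartIso.isMul_toLinePair` :
  `LinePair.IsMul (E.toLinePair D ..) (E.toLinePair D' ..) (E.toLinePair (D.mul D') ..)`
  (the Picard-group form `mk_ofIdeals_mul` is in `ToLinePair.lean`);
* `ChartIso.isUnitPair_toLinePair_top` : the unit ideal pair gives the unit line pair;
* `ChartIso.isScalePair_iff_isScale` : the dictionary between `IsScalePair` (ideal pairs, inside `F`
  via `E`) and `LinePair.IsScale`.
-/
import Fermat.Agent.T1.Adapt96.ToLinePair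

set_option autoImplicit false
set_option linter.style.haveILetI false

universe u v

namespace Fermat.Agent.T1.Adapt96

open Fermat.Agent.Jac Fermat.Agent.Jac.LineOps39 Fermat.Agent.Jac.JGroup85Pic
open Fermat.Agent.T1.Dict59

variable {K R0 R1 R01 : Type u} [Field K] [CommRing R0] [CommRing R1] [CommRing R01]
  [Algebra K R0] [Algebra K R1] [Algebra K R01] [Algebra R0 R01] [Algebra R1 R01]
  [IsScalarTower K R0 R01] [IsScalarTower K R1 R01]
  {F : Type v} [Field F] [Algebra K F]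

namespace ChartIso

variable {c : TwoChart K R0 R1 R01} {t : F} (E : ChartIso c t)

/-- Dictionary for one chart: `I' = f • I` (ideals, inside `F`) in elementwise `LinePair` form. -/
theorem isScaleIdeal0_iff {f : F} {I I' : Ideal R0} :
    (letI := E.alg0; IsScaleIdeal f I I') ↔
      ∀ x : F, x ∈ E.image0 I' ↔ ∃ y ∈ E.image0 I, x = f * y := by
  letI := E.alg0
  constructor
  · rintro ⟨h1, h2⟩ x
    constructor
    · rintro ⟨x', hx', rfl⟩
      obtain ⟨y, hy, hxy⟩ := h2 x' hx'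
      exact ⟨E.ι0 y, ⟨y, hy, rfl⟩, hxy⟩
    · rintro ⟨_, ⟨y, hy, rfl⟩, rfl⟩
      obtain ⟨x', hx', hxy⟩ := h1 y hy
      exact ⟨x', hx', hxy.symm⟩
  · intro h
    refine ⟨fun y hy => ?_, fun x' hx' => ?_⟩
    · obtain ⟨x', hx', hxy⟩ := (h (f * E.ι0 y)).mpr ⟨E.ι0 y, ⟨y, hy, rfl⟩, rfl⟩
      exact ⟨x', hx', hxy.symm⟩
    · obtain ⟨_, ⟨y, hy, rfl⟩, hxy⟩ := (h (E.ι0 x')).mp ⟨x', hx', rfl⟩
      exact ⟨y, hy, hxy⟩

/-- Dictionary for the other chart. -/
theorem isScaleIdeal1_iff {f : F} {I I' : Ideal R1} :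
    (letI := E.alg1; IsScaleIdeal f I I') ↔
      ∀ x : F, x ∈ E.image1 I' ↔ ∃ y ∈ E.image1 I, x = f * y := by
  letI := E.alg1
  constructor
  · rintro ⟨h1, h2⟩ x
    constructor
    · rintro ⟨x', hx', rfl⟩
      obtain ⟨y, hy, hxy⟩ := h2 x' hx'
      exact ⟨E.ι1 y, ⟨y, hy, rfl⟩, hxy⟩
    · rintro ⟨_, ⟨y, hy, rfl⟩, rfl⟩
      obtain ⟨x', hx', hxy⟩ := h1 y hy
      exact ⟨x', hx', hxy.symm⟩
  · intro h
    refine ⟨fun y hy => ?_, fun x' hx' => ?_⟩
    · obtain ⟨x', hx', hxy⟩ := (h (f * E.ι1 y)).mpr ⟨E.ι1 y, ⟨y, hy, rfl⟩, rfl⟩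
      exact ⟨x', hx', hxy.symm⟩
    · obtain ⟨_, ⟨y, hy, rfl⟩, hxy⟩ := (h (E.ι1 x')).mp ⟨x', hx', rfl⟩
      exact ⟨y, hy, hxy⟩

variable (D D' : IdealPair R0 R1 R01) (hD0 : D.I0 ≠ ⊥) (hD1 : D.I1 ≠ ⊥)
  (hfg0 : D.I0.FG) (hfg1 : D.I1.FG) (hD0' : D'.I0 ≠ ⊥) (hD1' : D'.I1 ≠ ⊥)
  (hfg0' : D'.I0.FG) (hfg1' : D'.I1.FG)

/-- `D' = f • D` (ideal pairs, inside `F` via `E`) ⟺ `toLinePair D' = f • toLinePair D`. -/
theorem isScalePair_iff_isScale {f : F} :
    (letI := E.alg0; letI := E.alg1; IsScalePair f D D') ↔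
      LinePair.IsScale f (E.toLinePair D hD0 hD1 hfg0 hfg1)
        (E.toLinePair D' hD0' hD1' hfg0' hfg1') :=
  and_congr E.isScaleIdeal0_iff E.isScaleIdeal1_iff

/-- **(B1)**, isomorphism form. -/
theorem nonempty_iso_iff_isScale :
    Nonempty (QC2.Iso (ofIdeals c D) (ofIdeals c D')) ↔
      ∃ f : F, f ≠ 0 ∧ LinePair.IsScale f (E.toLinePair D hD0 hD1 hfg0 hfg1)
        (E.toLinePair D' hD0' hD1' hfg0' hfg1') := by
  letI := E.alg0
  letI := E.alg1
  letI := E.alg01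
  have := E.tower0
  have := E.tower1
  rw [nonempty_iso_ofIdeals_iff c E.embedsIn hD0 hD1]
  exact exists_congr fun f => and_congr Iff.rfl
    (E.isScalePair_iff_isScale D D' hD0 hD1 hfg0 hfg1 hD0' hD1' hfg0' hfg1')

/-- **(B1)**: two ideal sheaves have the same class in the Picard group of the two-chart model iff
their field-level line pairs differ by a nonzero scalar of `F`. -/
theorem mk_ofIdeals_eq_iff_isScale (hL : (ofIdeals c D).IsLine) (hL' : (ofIdeals c D').IsLine) :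
    LinePic.mk c (ofIdeals c D) hL = LinePic.mk c (ofIdeals c D') hL' ↔
      ∃ f : F, f ≠ 0 ∧ LinePair.IsScale f (E.toLinePair D hD0 hD1 hfg0 hfg1)
        (E.toLinePair D' hD0' hD1' hfg0' hfg1') := by
  rw [LinePic.mk_eq_mk_iff]
  exact E.nonempty_iso_iff_isScale D D' hD0 hD1 hfg0 hfg1 hD0' hD1' hfg0' hfg1'

/-! ### (B2): products -/

theorem image0_mul (I J : Ideal R0) (x : F) :
    x ∈ E.image0 (I * J) ↔
      x ∈ Submodule.span (C0 (K := K) t) {z | ∃ a ∈ E.image0 I, ∃ b ∈ E.image0 J, z = a * b} := by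
  constructor
  · rintro ⟨y, hy, rfl⟩
    refine Submodule.mul_induction_on hy (fun a ha b hb => ?_) (fun y y' hy hy' => ?_)
    · exact Submodule.subset_span ⟨E.ι0 a, ⟨a, ha, rfl⟩, E.ι0 b, ⟨b, hb, rfl⟩, map_mul _ _ _⟩
    · rw [map_add]; exact Submodule.add_mem _ hy hy'
  · intro hx
    induction hx using Submodule.span_induction with
    | mem z hz =>
      obtain ⟨_, ⟨a, ha, rfl⟩, _, ⟨b, hb, rfl⟩, rfl⟩ := hz
      exact ⟨a * b, Ideal.mul_mem_mul ha hb, (map_mul _ _ _).symm⟩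
    | zero => exact Submodule.zero_mem _
    | add z z' _ _ hz hz' => exact Submodule.add_mem _ hz hz'
    | smul r z _ hz => exact Submodule.smul_mem _ r hz

theorem image1_mul (I J : Ideal R1) (x : F) :
    x ∈ E.image1 (I * J) ↔
      x ∈ Submodule.span (C1 (K := K) t) {z | ∃ a ∈ E.image1 I, ∃ b ∈ E.image1 J, z = a * b} := by
  constructor
  · rintro ⟨y, hy, rfl⟩
    refine Submodule.mul_induction_on hy (fun a ha b hb => ?_) (fun y y' hy hy' => ?_)
    · exact Submodule.subset_span ⟨E.ι1 a, ⟨a, ha, rfl⟩, E.ι1 b, ⟨b, hb, rfl⟩, map_mul _ _ _⟩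
    · rw [map_add]; exact Submodule.add_mem _ hy hy'
  · intro hx
    induction hx using Submodule.span_induction with
    | mem z hz =>
      obtain ⟨_, ⟨a, ha, rfl⟩, _, ⟨b, hb, rfl⟩, rfl⟩ := hz
      exact ⟨a * b, Ideal.mul_mem_mul ha hb, (map_mul _ _ _).symm⟩
    | zero => exact Submodule.zero_mem _
    | add z z' _ _ hz hz' => exact Submodule.add_mem _ hz hz'
    | smul r z _ hz => exact Submodule.smul_mem _ r hz

include E in
theorem mul_ne_bot0 {I J : Ideal R0} (hI : I ≠ ⊥) (hJ : J ≠ ⊥) : I * J ≠ ⊥ := by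
  have := E.isDomain0
  exact mul_ne_zero hI hJ

include E in
theorem mul_ne_bot1 {I J : Ideal R1} (hI : I ≠ ⊥) (hJ : J ≠ ⊥) : I * J ≠ ⊥ := by
  have := E.isDomain1
  exact mul_ne_zero hI hJ

/-- **(B2)**, line-pair form: `toLinePair (D.mul D')` is the product of the line pairs. -/
theorem isMul_toLinePair (h0 : (D.mul D').I0 ≠ ⊥) (h1 : (D.mul D').I1 ≠ ⊥)
    (hg0 : (D.mul D').I0.FG) (hg1 : (D.mul D').I1.FG) :
    LinePair.IsMul (E.toLinePair D hD0 hD1 hfg0 hfg1) (E.toLinePair D' hD0' hD1' hfg0' hfg1')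
      (E.toLinePair (D.mul D') h0 h1 hg0 hg1) :=
  ⟨fun x => E.image0_mul D.I0 D'.I0 x, fun x => E.image1_mul D.I1 D'.I1 x⟩

/-- The unit ideal pair gives the unit line pair. -/
theorem isUnitPair_toLinePair_top (h0 : (IdealPair.top : IdealPair R0 R1 R01).I0 ≠ ⊥)
    (h1 : (IdealPair.top : IdealPair R0 R1 R01).I1 ≠ ⊥)
    (hg0 : (IdealPair.top : IdealPair R0 R1 R01).I0.FG)
    (hg1 : (IdealPair.top : IdealPair R0 R1 R01).I1.FG) :
    LinePair.IsUnitPair (E.toLinePair IdealPair.top h0 h1 hg0 hg1) := by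
  constructor
  · intro x
    constructor
    · rintro ⟨y, -, rfl⟩
      exact (E.e0 y).2
    · intro hx
      exact ⟨E.e0.symm ⟨x, hx⟩, Submodule.mem_top, by rw [ι0_apply, RingEquiv.apply_symm_apply]⟩
  · intro x
    constructor
    · rintro ⟨y, -, rfl⟩
      exact (E.e1 y).2
    · intro hx
      exact ⟨E.e1.symm ⟨x, hx⟩, Submodule.mem_top, by rw [ι1_apply, RingEquiv.apply_symm_apply]⟩

end ChartIso

end Fermat.Agent.T1.Adapt96
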